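import Mathlib

/-!
# S41 / LATTICE : charpoly is multiplicative along an invariant subspace
-/

set_option autoImplicit false

namespace Fermat.Agent.S41.Lattice

open Polynomial Module Matrix

variable {K V W : Type*} [Field K] [AddCommGroup V] [Module K V] [FiniteDimensional K V]
  [AddCommGroup W] [Module K W] [FiniteDimensional K W]

/-- (CP1) `charpoly` is multiplicative along an invariant subspace.
RECIPE: copy the proof of Mathlib's `LinearMap.det_eq_det_mul_det`
(`Mathlib/LinearAlgebra/Determinant.lean`, l. 811): with `b := Module.Basis.sumQuot bW bQ` one has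
`LinearMap.toMatrix b b e = Matrix.fromBlocks A B 0 D`; then use `← LinearMap.charpoly_toMatrix _ b`
(three times) and `Matrix.charpoly_fromBlocks_zero₂₁`. -/
theorem charpoly_eq_restrict_mul_mapQ (U : Submodule K V) (f : V →ₗ[K] V) (hf : U ≤ U.comap f) :
    f.charpoly = (f.restrict hf).charpoly * (U.mapQ U f hf).charpoly := by
  classical
  let m := Module.Free.ChooseBasisIndex K U
  let bW : Basis m K U := Module.Free.chooseBasis K U
  let n := Module.Free.ChooseBasisIndex K (V ⧸ U)
  let bQ : Basis n K (V ⧸ U) := Module.Free.chooseBasis K (V ⧸ U)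
  let b := Module.Basis.sumQuot bW bQ
  let A : Matrix m m K := LinearMap.toMatrix bW bW (f.restrict hf)
  let B : Matrix m n K := Matrix.of fun i l ↦
    ((Module.Basis.sumQuot bW bQ).repr (f ((Module.Basis.sumQuot bW bQ) (Sum.inr l)))) (Sum.inl i)
  let D : Matrix n n K := LinearMap.toMatrix bQ bQ (U.mapQ U f hf)
  suffices LinearMap.toMatrix b b f = Matrix.fromBlocks A B 0 D by
    rw [← LinearMap.charpoly_toMatrix f b, this, ← LinearMap.charpoly_toMatrix (f.restrict hf) bW,
      ← LinearMap.charpoly_toMatrix (U.mapQ U f hf) bQ, Matrix.charpoly_fromBlocks_zero₂₁]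
  ext u v
  cases u with
  | inl i =>
    cases v with
    | inl k =>
      simp only [b, Module.Basis.sumQuot_inl, Matrix.fromBlocks_apply₁₁, A, LinearMap.toMatrix_apply]
      apply Module.Basis.sumQuot_repr_inl_of_mem
    | inr l => simp [b, LinearMap.toMatrix_apply, Matrix.fromBlocks_apply₁₂, B]
  | inr j =>
    cases v with
    | inl k =>
      suffices U.mkQ (f (bW k)) = 0 by simp [LinearMap.toMatrix_apply, b, this]
      rw [← LinearMap.mem_ker, Submodule.ker_mkQ]
      exact hf (Submodule.coe_mem (bW k))
    | inr l =>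
      simp only [LinearMap.toMatrix_apply, Module.Basis.sumQuot_repr_inr,
        Matrix.fromBlocks_apply₂₂, b, D]
      rw [← Module.Basis.sumQuot_inr bW bQ l, U.mapQ_apply]
      simp

end Fermat.Agent.S41.Lattice
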