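import Mathlib
import Fermat.Agent.S41.Lattice.CP1

/-!
# S41 / LATTICE : charpoly and intertwining maps
-/

set_option autoImplicit false

namespace Fermat.Agent.S41.Lattice

open Polynomial Module Matrix

variable {K V W : Type*} [Field K] [AddCommGroup V] [Module K V] [FiniteDimensional K V]
  [AddCommGroup W] [Module K W] [FiniteDimensional K W]

/-- (CP2) RECIPE: apply (CP1) to `f` and `U = ker φ`: the restriction of `f` to `ker φ` is the
identity, so its charpoly is `(X - 1) ^ finrank` (`LinearMap.charpoly_one` or via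
`Matrix.charpoly_one`); apply (CP1) to `g` and `U = range φ`; the operator induced by `f` on
`V ⧸ ker φ` is conjugate (`LinearMap.quotKerEquivRange`, `LinearEquiv.charpoly_conj`) to the
restriction of `g` to `range φ`. -/
theorem charpoly_dvd_of_ker (f : V →ₗ[K] V) (g : W →ₗ[K] W) (φ : V →ₗ[K] W)
    (hφ : φ ∘ₗ f = g ∘ₗ φ) (hker : ∀ x, φ x = 0 → f x = x) :
    ∃ d : ℕ, f.charpoly ∣ (X - 1) ^ d * g.charpoly := by
  have hfU : LinearMap.ker φ ≤ (LinearMap.ker φ).comap f := by
    intro x hx
    rw [Submodule.mem_comap, LinearMap.mem_ker, hker x (LinearMap.mem_ker.1 hx)]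
    exact LinearMap.mem_ker.1 hx
  have hgR : LinearMap.range φ ≤ (LinearMap.range φ).comap g := by
    rintro _ ⟨x, rfl⟩
    exact ⟨f x, LinearMap.congr_fun hφ x⟩
  have h1 : f.restrict (p := LinearMap.ker φ) (q := LinearMap.ker φ) hfU = 1 := by
    ext x
    exact hker x (LinearMap.mem_ker.1 x.2)
  have h2 : (φ.quotKerEquivRange).conj ((LinearMap.ker φ).mapQ (LinearMap.ker φ) f hfU)
      = g.restrict (p := LinearMap.range φ) (q := LinearMap.range φ) hgR := by
    apply LinearMap.ext
    intro y
    obtain ⟨z, rfl⟩ := φ.quotKerEquivRange.surjective y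
    obtain ⟨x, rfl⟩ := Submodule.Quotient.mk_surjective _ z
    rw [LinearEquiv.conj_apply_apply, LinearEquiv.symm_apply_apply, Submodule.mapQ_apply]
    apply Subtype.ext
    rw [LinearMap.quotKerEquivRange_apply_mk, LinearMap.coe_restrict_apply,
      LinearMap.quotKerEquivRange_apply_mk]
    exact LinearMap.congr_fun hφ x
  have h3 := charpoly_eq_restrict_mul_mapQ (LinearMap.ker φ) f hfU
  have h4 := charpoly_eq_restrict_mul_mapQ (LinearMap.range φ) g hgR
  rw [h1, LinearMap.charpoly_one] at h3
  rw [← h2, LinearEquiv.charpoly_conj] at h4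
  refine ⟨Module.finrank K (LinearMap.ker φ), ?_⟩
  rw [h3, h4, ← mul_assoc]
  exact dvd_mul_right _ _

end Fermat.Agent.S41.Lattice
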