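import Mathlib
import Fermat.Agent.S41.Lattice.CP2

/-!
# S41 / LATTICE : charpoly and intertwining maps, matrix form
-/

set_option autoImplicit false

namespace Fermat.Agent.S41.Lattice

open Polynomial Module Matrix

variable {K V W : Type*} [Field K] [AddCommGroup V] [Module K V] [FiniteDimensional K V]
  [AddCommGroup W] [Module K W] [FiniteDimensional K W]

omit [AddCommGroup V] [Module K V] [FiniteDimensional K V] [AddCommGroup W] [Module K W]
  [FiniteDimensional K W] in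
theorem cp3_charpoly_vecMulLinear {n : ℕ} (M : Matrix (Fin n) (Fin n) K) :
    M.vecMulLinear.charpoly = M.charpoly := by
  rw [← Matrix.mulVecLin_transpose, Matrix.charpoly_mulVecLin, Matrix.charpoly_transpose]

/-- (CP3) matrix form of (CP2) over a field.
RECIPE: `V = Fin r' → K`, `W = (Fin r → K) × (Fin r → K)`, `f = S'.vecMulLinear`
(`= toLin' S'ᵀ`), `g = S.vecMulLinear.prodMap S.vecMulLinear`,
`φ = A.vecMulLinear.prod B.vecMulLinear`; `LinearMap.charpoly_prodMap`,
`Matrix.charpoly_transpose`, `LinearMap.charpoly_toMatrix` with `Pi.basisFun`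
(`LinearMap.toMatrix'_toLin'`). -/
theorem field_charpoly_dvd {r r' : ℕ} (S : Matrix (Fin r) (Fin r) K)
    (S' : Matrix (Fin r') (Fin r') K) (A B : Matrix (Fin r') (Fin r) K)
    (hA : S' * A = A * S) (hB : S' * B = B * S)
    (hK : ∀ v : Fin r' → K, v ᵥ* A = 0 → v ᵥ* B = 0 → v ᵥ* S' = v) :
    ∃ d : ℕ, S'.charpoly ∣ (X - 1) ^ d * (S.charpoly * S.charpoly) := by
  obtain ⟨d, hd⟩ := charpoly_dvd_of_ker S'.vecMulLinear
    (S.vecMulLinear.prodMap S.vecMulLinear) (A.vecMulLinear.prod B.vecMulLinear) (by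
      refine LinearMap.ext fun v => ?_
      change ((v ᵥ* S') ᵥ* A, (v ᵥ* S') ᵥ* B) = ((v ᵥ* A) ᵥ* S, (v ᵥ* B) ᵥ* S)
      rw [Matrix.vecMul_vecMul, Matrix.vecMul_vecMul, Matrix.vecMul_vecMul, Matrix.vecMul_vecMul,
        hA, hB]) (by
      intro v hv
      have hv' : (v ᵥ* A, v ᵥ* B) = 0 := hv
      rw [Prod.mk_eq_zero] at hv'
      exact hK v hv'.1 hv'.2)
  refine ⟨d, ?_⟩
  rwa [LinearMap.charpoly_prodMap, cp3_charpoly_vecMulLinear, cp3_charpoly_vecMulLinear] at hd

end Fermat.Agent.S41.Lattice
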