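import Mathlib
import Fermat.Agent.S41.Lattice.CP3

/-!
# S41 / LATTICE : charpoly and intertwining maps, integral matrices
-/

set_option autoImplicit false

namespace Fermat.Agent.S41.Lattice

open Polynomial Module Matrix

/-- (CP4) clearing denominators. -/
theorem exists_int_smul_eq {n : ℕ} (v : Fin n → ℚ) :
    ∃ (m : ℤ) (w : Fin n → ℤ), m ≠ 0 ∧ ∀ i, (m : ℚ) * v i = (w i : ℚ) := by
  obtain ⟨b, hb⟩ := IsLocalization.exist_integer_multiples_of_finite (nonZeroDivisors ℤ) v
  choose w hw using hb
  refine ⟨b, w, nonZeroDivisors.coe_ne_zero b, fun i => ?_⟩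
  have := hw i
  simpa [Algebra.smul_def] using this.symm

/-- (CP5) integral form of (CP3).
RECIPE: apply (CP3) over `ℚ` to the matrices `S.map (Int.castRingHom ℚ)` etc.
(`Matrix.map_mul`, `Matrix.charpoly_map`); the hypothesis `hK` over `ℚ` follows from the one over
`ℤ` by (CP4) and injectivity of `ℤ → ℚ`; descend the divisibility with
`Polynomial.IsPrimitive.Int.dvd_iff_map_cast_dvd_map_cast` (monic polynomials are primitive:
`Polynomial.Monic.isPrimitive`, `Matrix.charpoly_monic`). -/
theorem int_charpoly_dvd {r r' : ℕ} (S : Matrix (Fin r) (Fin r) ℤ)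
    (S' : Matrix (Fin r') (Fin r') ℤ) (A B : Matrix (Fin r') (Fin r) ℤ)
    (hA : S' * A = A * S) (hB : S' * B = B * S)
    (hK : ∀ v : Fin r' → ℤ, v ᵥ* A = 0 → v ᵥ* B = 0 → v ᵥ* S' = v) :
    ∃ d : ℕ, S'.charpoly ∣ (X - 1) ^ d * (S.charpoly * S.charpoly) := by
  let φ : ℤ →+* ℚ := Int.castRingHom ℚ
  have hinj : Function.Injective φ := Int.cast_injective
  have key : ∀ {s : ℕ} (M : Matrix (Fin r') (Fin s) ℤ) (v : Fin r' → ℚ) (m : ℤ) (w : Fin r' → ℤ),
      (∀ i, (m : ℚ) * v i = (w i : ℚ)) → (φ ∘ (w ᵥ* M)) = (m : ℚ) • (v ᵥ* M.map φ) := by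
    intro s M v m w hw
    have hmv : φ ∘ w = (m : ℚ) • v := funext fun i => by
      simp only [Function.comp_apply, Pi.smul_apply, smul_eq_mul, hw i]
      rfl
    funext j
    rw [Function.comp_apply, RingHom.map_vecMul, hmv, Matrix.smul_vecMul]
  obtain ⟨d, hd⟩ := field_charpoly_dvd (S.map φ) (S'.map φ) (A.map φ) (B.map φ)
    (by rw [← Matrix.map_mul, ← Matrix.map_mul, hA])
    (by rw [← Matrix.map_mul, ← Matrix.map_mul, hB]) (by
      intro v hvA hvB
      obtain ⟨m, w, hm, hw⟩ := exists_int_smul_eq v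
      have hm' : (m : ℚ) ≠ 0 := by exact_mod_cast hm
      have hwA : w ᵥ* A = 0 := by
        funext j
        apply hinj
        have := congrFun (key A v m w hw) j
        rw [hvA, smul_zero] at this
        rw [Function.comp_apply] at this
        rw [this]
        simp
      have hwB : w ᵥ* B = 0 := by
        funext j
        apply hinj
        have := congrFun (key B v m w hw) j
        rw [hvB, smul_zero] at this
        rw [Function.comp_apply] at this
        rw [this]
        simp
      have hwS := hK w hwA hwB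
      have h1 := key S' v m w hw
      rw [hwS] at h1
      funext j
      have h2 := congrFun h1 j
      simp only [Function.comp_apply, Pi.smul_apply, smul_eq_mul] at h2
      have h3 : φ (w j) = (m : ℚ) * v j := (hw j).symm
      rw [h3] at h2
      exact (mul_left_cancel₀ hm' h2).symm)
  refine ⟨d, ?_⟩
  rw [Matrix.charpoly_map, Matrix.charpoly_map] at hd
  have hprim1 : S'.charpoly.IsPrimitive := (Matrix.charpoly_monic S').isPrimitive
  rw [Polynomial.IsPrimitive.Int.dvd_iff_map_cast_dvd_map_cast _ _ hprim1]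
  simpa [Polynomial.map_mul, Polynomial.map_pow, φ] using hd

end Fermat.Agent.S41.Lattice
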