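import Mathlib

/-!
# S41 / LATTICE : cardinality of the generalised kernel modulo p
-/

set_option autoImplicit false

namespace Fermat.Agent.S41.Lattice

open Polynomial Module Matrix

/-- the generalised kernel of a matrix, as a set of column vectors. -/
def gker {R : Type*} [CommRing R] {r : ℕ} (M : Matrix (Fin r) (Fin r) R) : Set (Fin r → R) :=
  {x | ∃ n : ℕ, (M ^ n) *ᵥ x = 0}

/-- (CP6) RECIPE: `gker M` is the carrier of `(Matrix.toLin' M).maxGenEigenspace 0`
(`Module.End.mem_maxGenEigenspace`, `Matrix.toLin'_pow`/`Matrix.toLin'_mul`), its cardinality is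
`p ^ finrank` (`Module.natCard_eq_pow_finrank` / `card_eq_pow_finrank`, `ZMod.card`), and
`LinearMap.finrank_maxGenEigenspace_eq` computes the `finrank`
(`LinearMap.charpoly_toMatrix`, `LinearMap.toMatrix'_toLin'`). -/
theorem card_gker {p : ℕ} [Fact p.Prime] {r : ℕ} (M : Matrix (Fin r) (Fin r) (ZMod p)) :
    Nat.card (gker M) = p ^ (M.charpoly.rootMultiplicity 0) := by
  have h1 : gker M = (Module.End.maxGenEigenspace (Matrix.toLin' M) 0 : Set (Fin r → ZMod p)) := by
    ext x
    rw [SetLike.mem_coe, Module.End.mem_maxGenEigenspace]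
    simp only [zero_smul, sub_zero]
    refine exists_congr fun n => ?_
    have : (Matrix.toLin' M) ^ n = Matrix.toLin' (M ^ n) := (Matrix.toLin'_pow M n).symm
    rw [this, Matrix.toLin'_apply]
  rw [h1]
  have h2 : Nat.card (Module.End.maxGenEigenspace (Matrix.toLin' M) 0 : Set (Fin r → ZMod p)) =
      Nat.card (Module.End.maxGenEigenspace (Matrix.toLin' M) 0) := rfl
  rw [h2, Module.natCard_eq_pow_finrank (K := ZMod p), Nat.card_zmod,
    LinearMap.finrank_maxGenEigenspace_eq, Matrix.charpoly_toLin']

end Fermat.Agent.S41.Lattice
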