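import Mathlib
import Fermat.Agent.S41.Lattice.CP5
import Fermat.Agent.S41.Lattice.CP6

/-!
# S41 / LATTICE : generalised kernels modulo p of intertwined integral matrices
-/

set_option autoImplicit false

namespace Fermat.Agent.S41.Lattice

open Polynomial Module Matrix

/-- (CP7) **the output of this file.**
RECIPE: (CP5), reduce modulo `p` (`Polynomial.map_dvd`, `Matrix.charpoly_map`), then
`Polynomial.rootMultiplicity_le_rootMultiplicity_of_dvd`, `Polynomial.rootMultiplicity_mul`,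
`Polynomial.rootMultiplicity_eq_zero` for `(X - 1) ^ d` at `0`, and (CP6). -/
theorem card_gker_le {p : ℕ} [Fact p.Prime] {r r' : ℕ} (S : Matrix (Fin r) (Fin r) ℤ)
    (S' : Matrix (Fin r') (Fin r') ℤ) (A B : Matrix (Fin r') (Fin r) ℤ)
    (hA : S' * A = A * S) (hB : S' * B = B * S)
    (hK : ∀ v : Fin r' → ℤ, v ᵥ* A = 0 → v ᵥ* B = 0 → v ᵥ* S' = v) :
    Nat.card (gker (S'.map (Int.castRingHom (ZMod p)))) ≤
      Nat.card (gker (S.map (Int.castRingHom (ZMod p)))) ^ 2 := by
  obtain ⟨d, hd⟩ := int_charpoly_dvd S S' A B hA hB hK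
  have hp : 0 < p := (Fact.out : p.Prime).pos
  have h1 := Polynomial.map_dvd (Int.castRingHom (ZMod p)) hd
  rw [Polynomial.map_mul, Polynomial.map_mul, Polynomial.map_pow, Polynomial.map_sub,
    Polynomial.map_X, Polynomial.map_one, ← Matrix.charpoly_map, ← Matrix.charpoly_map] at h1
  set χ := (S.map (Int.castRingHom (ZMod p))).charpoly with hχ
  set χ' := (S'.map (Int.castRingHom (ZMod p))).charpoly with hχ'
  have hχ0 : χ ≠ 0 := (Matrix.charpoly_monic _).ne_zero
  have hX0 : ((X : (ZMod p)[X]) - 1) ^ d ≠ 0 := by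
    have : ((X : (ZMod p)[X]) - 1) = X - C 1 := by rw [map_one]
    rw [this]
    exact pow_ne_zero _ (X_sub_C_ne_zero 1)
  have hχχ : χ * χ ≠ 0 := mul_ne_zero hχ0 hχ0
  have hall : ((X : (ZMod p)[X]) - 1) ^ d * (χ * χ) ≠ 0 := mul_ne_zero hX0 hχχ
  have h2 := Polynomial.rootMultiplicity_le_rootMultiplicity_of_dvd hall h1 0
  have h3 : rootMultiplicity 0 (((X : (ZMod p)[X]) - 1) ^ d) = 0 := by
    apply rootMultiplicity_eq_zero
    rw [IsRoot.def, eval_pow, eval_sub, eval_X, eval_one, zero_sub]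
    exact pow_ne_zero _ (neg_ne_zero.2 one_ne_zero)
  rw [rootMultiplicity_mul hall, rootMultiplicity_mul hχχ, h3, zero_add] at h2
  rw [card_gker, card_gker, ← pow_mul]
  refine Nat.pow_le_pow_right hp ?_
  rw [← hχ, ← hχ']
  omega

end Fermat.Agent.S41.Lattice
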