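import Mathlib

/-!
# S41 / LATTICE : idempotent powers in a finite monoid
-/

set_option autoImplicit false

namespace Fermat.Agent.S41.Lattice

theorem id1_exists_one (M : Type*) [Monoid M] [Finite M] (a : M) :
    ∃ k : ℕ, 0 < k ∧ IsIdempotentElem (a ^ k) := by
  obtain ⟨m, d, hd, h⟩ : ∃ m d : ℕ, 0 < d ∧ a ^ m = a ^ (m + d) := by
    obtain ⟨m, n, hne, h⟩ := Finite.exists_ne_map_eq_of_infinite (fun n : ℕ => a ^ n)
    rcases lt_or_gt_of_ne hne with hlt | hlt
    · exact ⟨m, n - m, by omega, by rw [show m + (n - m) = n by omega]; exact h⟩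
    · exact ⟨n, m - n, by omega, by rw [show n + (m - n) = m by omega]; exact h.symm⟩
  have h1 : ∀ j, m ≤ j → a ^ j = a ^ (j + d) := by
    intro j hj
    obtain ⟨t, rfl⟩ := Nat.exists_eq_add_of_le hj
    rw [pow_add, h, ← pow_add, show m + d + t = m + t + d by ring]
  have h2 : ∀ i j, m ≤ j → a ^ j = a ^ (j + i * d) := by
    intro i
    induction i with
    | zero => intro j _; simp
    | succ i ih =>
      intro j hj
      rw [ih j hj, h1 (j + i * d) (by omega), show j + i * d + d = j + (i + 1) * d by ring]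
  refine ⟨(m + 1) * d, Nat.mul_pos (Nat.succ_pos m) hd, ?_⟩
  have hm : m ≤ (m + 1) * d := by nlinarith
  show a ^ ((m + 1) * d) * a ^ ((m + 1) * d) = a ^ ((m + 1) * d)
  rw [← pow_add]
  exact (h2 (m + 1) _ hm).symm

/-- (ID1) In a finite monoid a single exponent `k > 0` makes all `a ^ k` idempotent.
RECIPE: for one `a`: by pigeonhole (`Finite.exists_ne_map_eq_of_infinite (fun n : ℕ => a ^ n)`)
`a ^ m = a ^ (m + d)` with `d > 0`; then `a ^ j = a ^ (j + d)` for `j ≥ m`, hence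
`a ^ j = a ^ (j + i * d)`; take `j = m * d` (if `m = 0` take `j = d`), `k_a = j`:
`a ^ k_a * a ^ k_a = a ^ (k_a + k_a) = a ^ k_a` as `d ∣ k_a`, `k_a ≥ m`.
Uniform exponent: `k = ∏ a, k_a` (`Fintype.ofFinite`), `a ^ k = (a ^ k_a) ^ (k / k_a) = a ^ k_a`
(`IsIdempotentElem.pow_succ_eq` or induction). -/
theorem exists_pow_idem (M : Type*) [Monoid M] [Finite M] :
    ∃ k : ℕ, 0 < k ∧ ∀ a : M, IsIdempotentElem (a ^ k) := by
  classical
  have := Fintype.ofFinite M
  choose κ hκ0 hκ using id1_exists_one M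
  have hpos : 0 < ∏ a : M, κ a := Finset.prod_pos fun a _ => hκ0 a
  refine ⟨∏ a : M, κ a, hpos, fun a => ?_⟩
  obtain ⟨c, hc⟩ : κ a ∣ ∏ a : M, κ a := Finset.dvd_prod_of_mem κ (Finset.mem_univ a)
  have hc0 : c ≠ 0 := by
    rintro rfl
    rw [mul_zero] at hc
    omega
  obtain ⟨c', rfl⟩ := Nat.exists_eq_succ_of_ne_zero hc0
  rw [hc, pow_mul, (hκ a).pow_succ_eq c']
  exact hκ a

end Fermat.Agent.S41.Lattice
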