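import Mathlib

/-!
# S41 / LATTICE : evaluation of non commutative polynomials (`FreeAlgebra ℤ ℕ`)
-/

set_option autoImplicit false

namespace Fermat.Agent.S41.Lattice

variable {A : Type*} [Ring A] [Algebra ℤ A]

/-- (ID2a) RECIPE: `FreeAlgebra.induction` (cases `algebraMap`, `ι`, `mul`, `add`). -/
theorem lift_mem (S : Subalgebra ℤ A) (t : ℕ → A) (h : ∀ ℓ, t ℓ ∈ S) (X : FreeAlgebra ℤ ℕ) :
    FreeAlgebra.lift ℤ t X ∈ S := by
  induction X using FreeAlgebra.induction with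
  | grade0 c =>
    rw [AlgHom.commutes]
    exact S.algebraMap_mem c
  | grade1 x =>
    rw [FreeAlgebra.lift_ι_apply]
    exact h x
  | mul a b ha hb =>
    rw [map_mul]
    exact S.mul_mem ha hb
  | add a b ha hb =>
    rw [map_add]
    exact S.add_mem ha hb

/-- (ID2b) RECIPE: (ID2a) twice with `Subalgebra.centralizer ℤ (Set.range t)` and then
`Subalgebra.centralizer ℤ {FreeAlgebra.lift ℤ t X}` (`Subalgebra.mem_centralizer_iff`). -/
theorem lift_commute (t : ℕ → A) (h : ∀ ℓ ℓ', Commute (t ℓ) (t ℓ')) (X Y : FreeAlgebra ℤ ℕ) :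
    Commute (FreeAlgebra.lift ℤ t X) (FreeAlgebra.lift ℤ t Y) := by
  have h1 : ∀ (X : FreeAlgebra ℤ ℕ) (ℓ : ℕ), Commute (t ℓ) (FreeAlgebra.lift ℤ t X) := by
    intro X ℓ
    have := lift_mem (Subalgebra.centralizer ℤ {t ℓ}) t (fun ℓ' => by
      rw [Subalgebra.mem_centralizer_iff]
      intro g hg
      rw [Set.mem_singleton_iff] at hg
      rw [hg]
      exact h ℓ ℓ') X
    rw [Subalgebra.mem_centralizer_iff] at this
    exact this _ (Set.mem_singleton _)
  have h2 := lift_mem (Subalgebra.centralizer ℤ {FreeAlgebra.lift ℤ t X}) t (fun ℓ' => by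
    rw [Subalgebra.mem_centralizer_iff]
    intro g hg
    rw [Set.mem_singleton_iff] at hg
    rw [hg]
    exact (h1 X ℓ').symm) Y
  rw [Subalgebra.mem_centralizer_iff] at h2
  exact h2 _ (Set.mem_singleton _)

/-- (ID2c) RECIPE: `FreeAlgebra.induction`, or `FreeAlgebra.hom_ext` applied to
`φ.toIntAlgHom.comp (FreeAlgebra.lift ℤ t)`. -/
theorem lift_map {B : Type*} [Ring B] [Algebra ℤ B] (φ : A →+* B) (t : ℕ → A)
    (X : FreeAlgebra ℤ ℕ) :
    φ (FreeAlgebra.lift ℤ t X) = FreeAlgebra.lift ℤ (fun ℓ => φ (t ℓ)) X := by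
  induction X using FreeAlgebra.induction with
  | grade0 c =>
    rw [AlgHom.commutes, AlgHom.commutes, eq_intCast, eq_intCast, map_intCast]
  | grade1 x =>
    rw [FreeAlgebra.lift_ι_apply, FreeAlgebra.lift_ι_apply]
  | mul a b ha hb =>
    rw [map_mul, map_mul, map_mul, ha, hb]
  | add a b ha hb =>
    rw [map_add, map_add, map_add, ha, hb]

/-- (ID2d) RECIPE: `FreeAlgebra.induction`; for `algebraMap ℤ _ c` use that it is `c • 1`
(`Algebra.algebraMap_eq_smul_one`, `Matrix.smul_mul`, `Matrix.mul_smul`). -/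
theorem lift_intertwine {r r' : ℕ} (T : ℕ → Matrix (Fin r) (Fin r) ℤ)
    (T' : ℕ → Matrix (Fin r') (Fin r') ℤ) (J : Matrix (Fin r') (Fin r) ℤ)
    (h : ∀ ℓ, T' ℓ * J = J * T ℓ) (X : FreeAlgebra ℤ ℕ) :
    FreeAlgebra.lift ℤ T' X * J = J * FreeAlgebra.lift ℤ T X := by
  induction X using FreeAlgebra.induction with
  | grade0 c =>
    rw [AlgHom.commutes, AlgHom.commutes, Algebra.algebraMap_eq_smul_one,
      Algebra.algebraMap_eq_smul_one, Matrix.smul_mul, Matrix.mul_smul, Matrix.one_mul,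
      Matrix.mul_one]
  | grade1 x =>
    rw [FreeAlgebra.lift_ι_apply, FreeAlgebra.lift_ι_apply]
    exact h x
  | mul a b ha hb =>
    rw [map_mul, map_mul, Matrix.mul_assoc, hb, ← Matrix.mul_assoc, ha, Matrix.mul_assoc]
  | add a b ha hb =>
    rw [map_add, map_add, Matrix.add_mul, Matrix.mul_add, ha, hb]

end Fermat.Agent.S41.Lattice
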