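import Mathlib
import Fermat.Agent.S41.Lattice.CP6
import Fermat.Agent.S41.Lattice.ID2

/-!
# S41 / LATTICE : local nilpotency; Hecke polynomials on the generalised eigenspace
-/

set_option autoImplicit false

namespace Fermat.Agent.S41.Lattice

open Matrix

/-- the generalised eigenspace of a family of matrices over `ZMod p`. -/
def gEig {p r : ℕ} (t : ℕ → Matrix (Fin r) (Fin r) (ZMod p)) (θ : ℕ → ZMod p) :
    Set (Fin r → ZMod p) :=
  {x | ∀ ℓ, x ∈ gker (t ℓ - θ ℓ • (1 : Matrix (Fin r) (Fin r) (ZMod p)))}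

section
variable {R : Type*} [CommRing R] {r : ℕ} {M₁ M₂ C M : Matrix (Fin r) (Fin r) R} {x : Fin r → R}

theorem id3_pow_mulVec_of_le {n m : ℕ} (h : (M ^ n) *ᵥ x = 0) (hnm : n ≤ m) :
    (M ^ m) *ᵥ x = 0 := by
  obtain ⟨k, rfl⟩ := Nat.exists_eq_add_of_le' hnm
  rw [pow_add, ← Matrix.mulVec_mulVec, h, Matrix.mulVec_zero]

theorem id3_comm_smul_one (X : Matrix (Fin r) (Fin r) R) (c : R) :
    Commute X (c • (1 : Matrix (Fin r) (Fin r) R)) :=
  (Commute.one_right X).smul_right c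

/-- (ID3a) RECIPE: `M₁ ^ n₁ *ᵥ x = 0`, `M₂ ^ n₂ *ᵥ x = 0`; expand `(M₁ + M₂) ^ (n₁ + n₂)` by
`Commute.add_pow'` (sum over `Finset.antidiagonal`); in each term `i ≥ n₁` or `j ≥ n₂`;
use `Matrix.mulVec_mulVec`, `(h.pow_pow i j).eq`, `pow_add`. -/
theorem gker_add (h : Commute M₁ M₂) (h₁ : x ∈ gker M₁) (h₂ : x ∈ gker M₂) :
    x ∈ gker (M₁ + M₂) := by
  obtain ⟨n₁, e₁⟩ := h₁
  obtain ⟨n₂, e₂⟩ := h₂
  refine ⟨n₁ + n₂, ?_⟩
  rw [h.add_pow', Matrix.sum_mulVec]
  apply Finset.sum_eq_zero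
  rintro ⟨i, j⟩ hij
  rw [Finset.HasAntidiagonal.mem_antidiagonal] at hij
  simp only at hij ⊢
  rw [Matrix.smul_mulVec]
  rcases le_or_gt n₁ i with hi | hi
  · rw [(h.pow_pow i j).eq, ← Matrix.mulVec_mulVec, id3_pow_mulVec_of_le e₁ hi, Matrix.mulVec_zero,
      smul_zero]
  · rw [← Matrix.mulVec_mulVec, id3_pow_mulVec_of_le e₂ (by omega), Matrix.mulVec_zero, smul_zero]

/-- (ID3b) RECIPE: `Commute.mul_pow`. -/
theorem gker_mul_left (h : Commute C M) (hx : x ∈ gker M) : x ∈ gker (C * M) := by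
  obtain ⟨n, e⟩ := hx
  exact ⟨n, by rw [h.mul_pow, ← Matrix.mulVec_mulVec, e, Matrix.mulVec_zero]⟩

/-- (ID3c) -/
theorem gker_mul_right (h : Commute C M) (hx : x ∈ gker M) : x ∈ gker (M * C) := by
  rw [← h.eq]
  exact gker_mul_left h hx

end

/-- (ID3d) On the generalised `θ`-eigenspace every Hecke polynomial `X` acts as `X(θ)` + nilpotent.
RECIPE: `FreeAlgebra.induction` on `X`. `algebraMap c`: the difference is `0`
(`Algebra.algebraMap_eq_smul_one`, exponent `1`). `ι ℓ`: `hx ℓ` (`FreeAlgebra.lift_ι_apply`).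
`X * Y`: `XY - θ_X θ_Y = (X - θ_X) * Y + θ_X • (Y - θ_Y)`; `X + Y`: clear. All the matrices
involved commute by `lift_commute` (scalar matrices commute with everything:
`Commute.smul_right`, `Commute.one_right`, `Commute.sub_left`, ...). -/
theorem gker_lift_sub {p r : ℕ} (t : ℕ → Matrix (Fin r) (Fin r) (ZMod p))
    (ht : ∀ ℓ ℓ', Commute (t ℓ) (t ℓ')) (θ : ℕ → ZMod p) {x : Fin r → ZMod p}
    (hx : x ∈ gEig t θ) (X : FreeAlgebra ℤ ℕ) :
    x ∈ gker (FreeAlgebra.lift ℤ t X -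
      (FreeAlgebra.lift ℤ θ X) • (1 : Matrix (Fin r) (Fin r) (ZMod p))) := by
  induction X using FreeAlgebra.induction with
  | grade0 c =>
    refine ⟨1, ?_⟩
    rw [AlgHom.commutes, AlgHom.commutes, Algebra.algebraMap_eq_smul_one, algebraMap_smul, sub_self,
      pow_one, Matrix.zero_mulVec]
  | grade1 ℓ =>
    rw [FreeAlgebra.lift_ι_apply, FreeAlgebra.lift_ι_apply]
    exact hx ℓ
  | mul a b iha ihb =>
    have hab := lift_commute t ht a b
    have hPLb : Commute (FreeAlgebra.lift ℤ t a -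
        (FreeAlgebra.lift ℤ θ a) • (1 : Matrix (Fin r) (Fin r) (ZMod p)))
        (FreeAlgebra.lift ℤ t b) :=
      hab.sub_left (id3_comm_smul_one _ _).symm
    have hPQ : Commute (FreeAlgebra.lift ℤ t a -
        (FreeAlgebra.lift ℤ θ a) • (1 : Matrix (Fin r) (Fin r) (ZMod p)))
        (FreeAlgebra.lift ℤ t b -
        (FreeAlgebra.lift ℤ θ b) • (1 : Matrix (Fin r) (Fin r) (ZMod p))) :=
      hPLb.sub_right (id3_comm_smul_one _ _)
    have hLbQ : Commute (FreeAlgebra.lift ℤ t b) (FreeAlgebra.lift ℤ t b -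
        (FreeAlgebra.lift ℤ θ b) • (1 : Matrix (Fin r) (Fin r) (ZMod p))) :=
      (Commute.refl _).sub_right (id3_comm_smul_one _ _)
    have e : FreeAlgebra.lift ℤ t (a * b) -
        (FreeAlgebra.lift ℤ θ (a * b)) • (1 : Matrix (Fin r) (Fin r) (ZMod p))
        = (FreeAlgebra.lift ℤ t a -
          (FreeAlgebra.lift ℤ θ a) • (1 : Matrix (Fin r) (Fin r) (ZMod p))) * FreeAlgebra.lift ℤ t b
          + ((FreeAlgebra.lift ℤ θ a) • (1 : Matrix (Fin r) (Fin r) (ZMod p))) *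
            (FreeAlgebra.lift ℤ t b -
              (FreeAlgebra.lift ℤ θ b) • (1 : Matrix (Fin r) (Fin r) (ZMod p))) := by
      rw [map_mul, map_mul, sub_mul, mul_sub, smul_mul_assoc, one_mul, smul_mul_assoc, one_mul,
        smul_smul]
      abel
    rw [e]
    exact gker_add
      (Commute.mul_left (Commute.mul_right (id3_comm_smul_one _ _) hPQ)
        (Commute.mul_right (id3_comm_smul_one _ _) hLbQ))
      (gker_mul_right hPLb.symm iha)
      (gker_mul_left (id3_comm_smul_one _ _).symm ihb)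
  | add a b iha ihb =>
    have hab := lift_commute t ht a b
    have hPLb : Commute (FreeAlgebra.lift ℤ t a -
        (FreeAlgebra.lift ℤ θ a) • (1 : Matrix (Fin r) (Fin r) (ZMod p)))
        (FreeAlgebra.lift ℤ t b) :=
      hab.sub_left (id3_comm_smul_one _ _).symm
    have hPQ : Commute (FreeAlgebra.lift ℤ t a -
        (FreeAlgebra.lift ℤ θ a) • (1 : Matrix (Fin r) (Fin r) (ZMod p)))
        (FreeAlgebra.lift ℤ t b -
        (FreeAlgebra.lift ℤ θ b) • (1 : Matrix (Fin r) (Fin r) (ZMod p))) :=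
      hPLb.sub_right (id3_comm_smul_one _ _)
    have e : FreeAlgebra.lift ℤ t (a + b) -
        (FreeAlgebra.lift ℤ θ (a + b)) • (1 : Matrix (Fin r) (Fin r) (ZMod p))
        = (FreeAlgebra.lift ℤ t a -
          (FreeAlgebra.lift ℤ θ a) • (1 : Matrix (Fin r) (Fin r) (ZMod p)))
          + (FreeAlgebra.lift ℤ t b -
              (FreeAlgebra.lift ℤ θ b) • (1 : Matrix (Fin r) (Fin r) (ZMod p))) := by
      rw [map_add, map_add, add_smul]
      abel
    rw [e]
    exact gker_add hPQ iha ihb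

end Fermat.Agent.S41.Lattice
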