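import Mathlib
import Fermat.Agent.S41.Lattice.ID3

/-!
# S41 / LATTICE : the Hecke polynomial `∏ (1 - (T_ℓ - a_ℓ) ^ k)`
-/

set_option autoImplicit false

namespace Fermat.Agent.S41.Lattice

open Matrix

/-- `1 - (T_ℓ - a_ℓ) ^ k`. -/
noncomputable def eFac (a : ℕ → ℤ) (k ℓ : ℕ) : FreeAlgebra ℤ ℕ :=
  1 - (FreeAlgebra.ι ℤ ℓ - algebraMap ℤ (FreeAlgebra ℤ ℕ) (a ℓ)) ^ k

/-- `∏_{ℓ ∈ L} (1 - (T_ℓ - a_ℓ) ^ k)`. -/
noncomputable def eList (a : ℕ → ℤ) (k : ℕ) (L : List ℕ) : FreeAlgebra ℤ ℕ :=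
  (L.map (eFac a k)).prod

/-- (ID4a) RECIPE: induction on `L`; every factor is sent to `1 - (a ℓ - a ℓ) ^ k = 1`. -/
theorem lift_eList_theta {p : ℕ} (a : ℕ → ℤ) {k : ℕ} (hk : 0 < k) (L : List ℕ) :
    FreeAlgebra.lift ℤ (fun ℓ => ((a ℓ : ℤ) : ZMod p)) (eList a k L) = 1 := by
  induction L with
  | nil => simp [eList]
  | cons ℓ L ih =>
    rw [eList] at ih
    rw [eList, List.map_cons, List.prod_cons, map_mul, ih, mul_one, eFac, map_sub, map_one,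
      map_pow, map_sub, FreeAlgebra.lift_ι_apply, AlgHom.commutes]
    simp [hk.ne']

/-- (ID4b) -/
theorem lift_sub_pow {p r : ℕ} (t : ℕ → Matrix (Fin r) (Fin r) (ZMod p)) (a : ℕ → ℤ) (k ℓ : ℕ) :
    FreeAlgebra.lift ℤ t ((FreeAlgebra.ι ℤ ℓ - algebraMap ℤ (FreeAlgebra ℤ ℕ) (a ℓ)) ^ k) =
      (t ℓ - ((a ℓ : ℤ) : ZMod p) • (1 : Matrix (Fin r) (Fin r) (ZMod p))) ^ k := by
  rw [map_pow, map_sub, FreeAlgebra.lift_ι_apply, AlgHom.commutes, Algebra.algebraMap_eq_smul_one,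
    Int.cast_smul_eq_zsmul]

/-- (ID4c) RECIPE: induction on `L`. With `w = (t ℓ - a ℓ) ^ k` (idempotent) the factor of `ℓ` is
`1 - w` (ID4b) and `w * (1 - w) = 0`; `w` commutes with the other factors (`lift_commute`, writing
`w` as a `lift` by (ID4b)). -/
theorem pow_mul_lift_eList {p r : ℕ} (t : ℕ → Matrix (Fin r) (Fin r) (ZMod p))
    (ht : ∀ ℓ ℓ', Commute (t ℓ) (t ℓ')) (a : ℕ → ℤ) (k : ℕ)
    (hidem : ∀ M : Matrix (Fin r) (Fin r) (ZMod p), IsIdempotentElem (M ^ k))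
    (L : List ℕ) {ℓ : ℕ} (hℓ : ℓ ∈ L) :
    (t ℓ - ((a ℓ : ℤ) : ZMod p) • (1 : Matrix (Fin r) (Fin r) (ZMod p))) ^ k *
      FreeAlgebra.lift ℤ t (eList a k L) = 0 := by
  induction L with
  | nil => simp at hℓ
  | cons ℓ' L ih =>
    have e : FreeAlgebra.lift ℤ t (eList a k (ℓ' :: L)) =
        FreeAlgebra.lift ℤ t (eFac a k ℓ') * FreeAlgebra.lift ℤ t (eList a k L) := by
      rw [eList, List.map_cons, List.prod_cons, map_mul, eList]
    rw [e]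
    rcases List.mem_cons.1 hℓ with rfl | h
    · rw [eFac, map_sub, map_one, lift_sub_pow, ← mul_assoc, mul_sub, mul_one, (hidem _).eq,
        sub_self, zero_mul]
    · have hc : Commute
          ((t ℓ - ((a ℓ : ℤ) : ZMod p) • (1 : Matrix (Fin r) (Fin r) (ZMod p))) ^ k)
          (FreeAlgebra.lift ℤ t (eFac a k ℓ')) := by
        rw [← lift_sub_pow]
        exact lift_commute t ht _ _
      rw [← mul_assoc, hc.eq, mul_assoc, ih h, mul_zero]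

end Fermat.Agent.S41.Lattice
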