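import Mathlib
import Fermat.Agent.S41.Lattice.ID3

/-!
# S41 / LATTICE : finitely many operators cut out the generalised eigenspace
-/

set_option autoImplicit false

namespace Fermat.Agent.S41.Lattice

open Matrix

/-- (ID5) RECIPE: `Fin r → ZMod p` is finite. For every `x ∉ gEig t θ` choose `ℓ_x` with
`x ∉ gker (t ℓ_x - θ ℓ_x • 1)`; `L` = the list of the `ℓ_x`
(`(Finset.univ.image f).toList` with `f x = if h : x ∈ gEig t θ then 0 else choose ..`, classical). -/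
theorem exists_list {p : ℕ} [NeZero p] {r : ℕ} (t : ℕ → Matrix (Fin r) (Fin r) (ZMod p))
    (θ : ℕ → ZMod p) :
    ∃ L : List ℕ, ∀ x : Fin r → ZMod p,
      (∀ ℓ ∈ L, x ∈ gker (t ℓ - θ ℓ • (1 : Matrix (Fin r) (Fin r) (ZMod p)))) → x ∈ gEig t θ := by
  classical
  have hfin : Fintype (ZMod p) := ZMod.fintype p
  have hch : ∀ x : Fin r → ZMod p, ∃ ℓ : ℕ, x ∉ gEig t θ →
      x ∉ gker (t ℓ - θ ℓ • (1 : Matrix (Fin r) (Fin r) (ZMod p))) := by
    intro x
    by_cases hx : x ∈ gEig t θ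
    · exact ⟨0, fun h => absurd hx h⟩
    · have hx' : ¬ ∀ ℓ, x ∈ gker (t ℓ - θ ℓ • (1 : Matrix (Fin r) (Fin r) (ZMod p))) := hx
      push Not at hx'
      obtain ⟨ℓ, hℓ⟩ := hx'
      exact ⟨ℓ, fun _ => hℓ⟩
  choose f hf using hch
  refine ⟨(Finset.univ.image f).toList, fun x hx => ?_⟩
  by_contra hxE
  exact hf x hxE (hx (f x) (by
    rw [Finset.mem_toList]
    exact Finset.mem_image_of_mem f (Finset.mem_univ x)))

end Fermat.Agent.S41.Lattice
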