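import Mathlib
import Fermat.Agent.S41.Lattice.ID1
import Fermat.Agent.S41.Lattice.ID4
import Fermat.Agent.S41.Lattice.ID5

/-!
# S41 / LATTICE : a single Hecke polynomial whose generalised kernel is the `θ`-part
-/

set_option autoImplicit false

namespace Fermat.Agent.S41.Lattice

open Matrix

/-- (ID6) RECIPE. `θ ℓ = (a ℓ : ZMod p)`. Take `k` from `exists_pow_idem (Matrix (Fin r) (Fin r) (ZMod p))`,
`L` from `exists_list t θ`, `c : ℤ` with `(c : ZMod p) = (lift θ P)⁻¹` (`ZMod.intCast_surjective`),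
`G := algebraMap ℤ _ c * eList a k L`, `X := 1 - P * G`.
* first inclusion: `gker_lift_sub t' ht' θ hx X` and `lift θ X = 1 - lift θ P * (c * 1) = 0`
  (`lift_eList_theta`).
* second inclusion: let `(lift t X) ^ n *ᵥ x = 0`, `ℓ ∈ L`, `w = (t ℓ - θ ℓ • 1) ^ k`. Then
  `w * lift t X = w` (as `w * lift t (eList a k L) = 0` by `pow_mul_lift_eList` and `w` commutes with
  `lift t P`, `lift t (algebraMap c)`: `lift_sub_pow` + `lift_commute`), so `w * (lift t X) ^ n = w`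
  and `w *ᵥ x = w *ᵥ ((lift t X) ^ n *ᵥ x) = 0`, i.e. `x ∈ gker (t ℓ - θ ℓ • 1)`. -/
theorem exists_G {p : ℕ} [Fact p.Prime] {r r' : ℕ} (t : ℕ → Matrix (Fin r) (Fin r) (ZMod p))
    (t' : ℕ → Matrix (Fin r') (Fin r') (ZMod p)) (ht : ∀ ℓ ℓ', Commute (t ℓ) (t ℓ'))
    (ht' : ∀ ℓ ℓ', Commute (t' ℓ) (t' ℓ')) (a : ℕ → ℤ) (P : FreeAlgebra ℤ ℕ)
    (hP : FreeAlgebra.lift ℤ (fun ℓ => ((a ℓ : ℤ) : ZMod p)) P ≠ 0) :
    ∃ G : FreeAlgebra ℤ ℕ,
      gEig t' (fun ℓ => ((a ℓ : ℤ) : ZMod p)) ⊆ gker (FreeAlgebra.lift ℤ t' (1 - P * G)) ∧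
      gker (FreeAlgebra.lift ℤ t (1 - P * G)) ⊆ gEig t (fun ℓ => ((a ℓ : ℤ) : ZMod p)) := by
  obtain ⟨k, hk0, hidem⟩ := exists_pow_idem (Matrix (Fin r) (Fin r) (ZMod p))
  obtain ⟨L, hL⟩ := exists_list t (fun ℓ => ((a ℓ : ℤ) : ZMod p))
  obtain ⟨c, hc⟩ := ZMod.intCast_surjective
    ((FreeAlgebra.lift ℤ (fun ℓ => ((a ℓ : ℤ) : ZMod p)) P)⁻¹)
  refine ⟨algebraMap ℤ _ c * eList a k L, ?_, ?_⟩
  · intro x hx
    have h1 := gker_lift_sub t' ht' _ hx (1 - P * (algebraMap ℤ _ c * eList a k L))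
    have h2 : FreeAlgebra.lift ℤ (fun ℓ => ((a ℓ : ℤ) : ZMod p))
        (1 - P * (algebraMap ℤ _ c * eList a k L)) = 0 := by
      rw [map_sub, map_one, map_mul, map_mul, AlgHom.commutes, lift_eList_theta a hk0 L, mul_one,
        eq_intCast, hc, mul_inv_cancel₀ hP, sub_self]
    rwa [h2, zero_smul, sub_zero] at h1
  · rintro x ⟨n, hn⟩
    apply hL
    intro ℓ hℓ
    refine ⟨k, ?_⟩
    set w := (t ℓ - ((a ℓ : ℤ) : ZMod p) • (1 : Matrix (Fin r) (Fin r) (ZMod p))) ^ k with hw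
    set Y := FreeAlgebra.lift ℤ t (1 - P * (algebraMap ℤ _ c * eList a k L)) with hY
    have hwE : w * FreeAlgebra.lift ℤ t (eList a k L) = 0 :=
      pow_mul_lift_eList t ht a k hidem L hℓ
    have hcomm : Commute w (FreeAlgebra.lift ℤ t (P * algebraMap ℤ _ c)) := by
      rw [hw, ← lift_sub_pow]
      exact lift_commute t ht _ _
    have hwY : w * Y = w := by
      rw [hY, map_sub, map_one, ← mul_assoc, map_mul, mul_sub, mul_one, ← mul_assoc, hcomm.eq,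
        mul_assoc, hwE, mul_zero, sub_zero]
    have hwYn : ∀ m : ℕ, w * Y ^ m = w := by
      intro m
      induction m with
      | zero => rw [pow_zero, mul_one]
      | succ m ih => rw [pow_succ', ← mul_assoc, hwY, ih]
    rw [← hwYn n, ← Matrix.mulVec_mulVec, hn, Matrix.mulVec_zero]

end Fermat.Agent.S41.Lattice
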