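import Mathlib
import Fermat.Agent.S41.Lattice.CP7
import Fermat.Agent.S41.Lattice.ID6

/-!
# S41 / LATTICE : the abstract theorem
-/

set_option autoImplicit false

namespace Fermat.Agent.S41.Lattice

open Matrix

/-- **The abstract form of LATTICE.** -/
theorem abs_main {p : ℕ} [Fact p.Prime] {r r' : ℕ}
    (T : ℕ → Matrix (Fin r) (Fin r) ℤ) (T' : ℕ → Matrix (Fin r') (Fin r') ℤ)
    (hT : ∀ ℓ ℓ', Commute (T ℓ) (T ℓ')) (hT' : ∀ ℓ ℓ', Commute (T' ℓ) (T' ℓ'))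
    (a : ℕ → ℤ) (A B : Matrix (Fin r') (Fin r) ℤ)
    (hA : ∀ ℓ, T' ℓ * A = A * T ℓ) (hB : ∀ ℓ, T' ℓ * B = B * T ℓ)
    (P : FreeAlgebra ℤ ℕ)
    (hP : ∀ v : Fin r' → ℤ, v ᵥ* A = 0 → v ᵥ* B = 0 → v ᵥ* (FreeAlgebra.lift ℤ T' P) = 0)
    (hθ : FreeAlgebra.lift ℤ (fun ℓ => ((a ℓ : ℤ) : ZMod p)) P ≠ 0) :
    Nat.card (gEig (fun ℓ => (T' ℓ).map (Int.castRingHom (ZMod p)))
        (fun ℓ => ((a ℓ : ℤ) : ZMod p))) ≤
      Nat.card (gEig (fun ℓ => (T ℓ).map (Int.castRingHom (ZMod p)))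
        (fun ℓ => ((a ℓ : ℤ) : ZMod p))) ^ 2 := by
  have hc : ∀ {n : ℕ} (U : ℕ → Matrix (Fin n) (Fin n) ℤ), (∀ ℓ ℓ', Commute (U ℓ) (U ℓ')) →
      ∀ ℓ ℓ', Commute ((U ℓ).map (Int.castRingHom (ZMod p)))
        ((U ℓ').map (Int.castRingHom (ZMod p))) := by
    intro n U hU ℓ ℓ'
    exact (hU ℓ ℓ').map (Int.castRingHom (ZMod p)).mapMatrix
  obtain ⟨G, h1, h2⟩ := exists_G (fun ℓ => (T ℓ).map (Int.castRingHom (ZMod p)))
    (fun ℓ => (T' ℓ).map (Int.castRingHom (ZMod p))) (hc T hT) (hc T' hT') a P hθ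
  have e1 : ∀ {n : ℕ} (U : ℕ → Matrix (Fin n) (Fin n) ℤ) (X : FreeAlgebra ℤ ℕ),
      FreeAlgebra.lift ℤ (fun ℓ => (U ℓ).map (Int.castRingHom (ZMod p))) X =
        (FreeAlgebra.lift ℤ U X).map (Int.castRingHom (ZMod p)) := by
    intro n U X
    exact (lift_map (Int.castRingHom (ZMod p)).mapMatrix U X).symm
  rw [e1] at h1 h2
  have key := card_gker_le (p := p) (FreeAlgebra.lift ℤ T (1 - P * G))
    (FreeAlgebra.lift ℤ T' (1 - P * G)) A B (lift_intertwine T T' A hA _)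
    (lift_intertwine T T' B hB _) (by
      intro v hvA hvB
      rw [map_sub, map_one, map_mul, Matrix.vecMul_sub, Matrix.vecMul_one, ← Matrix.vecMul_vecMul,
        hP v hvA hvB, Matrix.zero_vecMul, sub_zero])
  have : Finite (Fin r → ZMod p) := inferInstance
  have : Finite (Fin r' → ZMod p) := inferInstance
  calc _ ≤ Nat.card (gker ((FreeAlgebra.lift ℤ T' (1 - P * G)).map (Int.castRingHom (ZMod p)))) :=
        Nat.card_mono (Set.toFinite _) h1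
    _ ≤ _ := key
    _ ≤ _ := Nat.pow_le_pow_left (Nat.card_mono (Set.toFinite _) h2) 2

end Fermat.Agent.S41.Lattice
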