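import Fermat.Agent.S41.Lattice.PE1

/-!
# S41 / LATTICE : conjugation of `Γ₀(N q)` by `diag(q, 1)`
-/

set_option autoImplicit false

noncomputable section

namespace Fermat.Agent.S41.Lattice

open CongruenceSubgroup Matrix.SpecialLinearGroup
open scoped ModularForm MatrixGroups

theorem pe3_aux {p : ℕ} (hp : p ≠ 0) (g : SL(2, ℤ)) (e : ℤ) (he : g 1 0 = p * e) :
    ∃ g' : SL(2, ℤ), g' 1 0 = e ∧
      ModularForm.heckeDiagMatrix p * mapGL ℝ g = mapGL ℝ g' * ModularForm.heckeDiagMatrix p := by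
  have hdet : g 0 0 * g 1 1 - g 0 1 * g 1 0 = 1 := by
    have h := g.det_coe
    rwa [Matrix.det_fin_two] at h
  obtain ⟨g', h00, h01, h10, h11⟩ : ∃ g' : SL(2, ℤ), g' 0 0 = g 0 0 ∧ g' 0 1 = p * g 0 1 ∧
      g' 1 0 = e ∧ g' 1 1 = g 1 1 := by
    refine ⟨⟨!![g 0 0, p * g 0 1; e, g 1 1], ?_⟩, rfl, rfl, rfl, rfl⟩
    rw [Matrix.det_fin_two_of]
    linear_combination hdet + (g 0 1) * he
  refine ⟨g', h10, ?_⟩
  ext i j
  fin_cases i <;> fin_cases j <;>
    simp [hp, Matrix.mul_apply, Fin.sum_univ_two, h00, h01, h10, h11]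
  all_goals first
    | (have := congrArg (Int.cast : ℤ → ℝ) he; push_cast at this ⊢; linear_combination this)
    | (have := congrArg (Int.cast : ℤ → ℝ) he; push_cast at this ⊢; linear_combination -this)
    | ring1

/-- (PE3) `diag(q,1) [[a,b],[c,d]] = [[a, q b],[c / q, d]] diag(q,1)`, and `N ∣ c / q` if `N q ∣ c`.
RECIPE: `Gamma0_mem`, `ZMod.intCast_zmod_eq_zero_iff_dvd` give `c = N * q * c'`; put
`γ' = ⟨!![a, q * b; N * c', d], det = 1⟩`; the matrix identity: `Units.ext`/`Matrix.GeneralLinearGroup.ext`,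
`ModularForm.val_heckeDiagMatrix (NeZero.ne q)`, `Matrix.SpecialLinearGroup.mapGL_coe_matrix` (or
`coe_mapGL`), `Matrix.mul_fin_two`/`fin_cases` + `simp` + `push_cast; ring`.  Compare the proof of
`heckeMatrix_mul_of_eq` in `Fermat/Prelude/Sol/S_ModularForm_heckeU_slash_eq_self_of_mem_Gamma0.lean`. -/
theorem exists_conj (N q : ℕ) [NeZero q] (γ : Gamma0 (N * q)) :
    ∃ γ' : Gamma0 N, ModularForm.heckeDiagMatrix q * mapGL ℝ (γ : SL(2, ℤ)) =
      mapGL ℝ (γ' : SL(2, ℤ)) * ModularForm.heckeDiagMatrix q := by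
  obtain ⟨g, hg⟩ := γ
  have hg' := hg
  rw [Gamma0_mem, ZMod.intCast_zmod_eq_zero_iff_dvd] at hg'
  obtain ⟨c', hc'⟩ := hg'
  have he : g 1 0 = q * ((N : ℤ) * c') := by
    rw [hc']
    push_cast
    ring
  obtain ⟨g', h1, h2⟩ := pe3_aux (NeZero.ne q) g _ he
  refine ⟨⟨g', ?_⟩, h2⟩
  rw [Gamma0_mem, ZMod.intCast_zmod_eq_zero_iff_dvd, h1]
  exact Dvd.intro c' rfl

end Fermat.Agent.S41.Lattice
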