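import Fermat.Agent.S41.Lattice.PE2
import Fermat.Agent.S41.Lattice.PE3

/-!
# S41 / LATTICE : the two degeneracy maps respect the period lattices
-/

set_option autoImplicit false

noncomputable section

namespace Fermat.Agent.S41.Lattice

open CongruenceSubgroup ModularCurve ModularCurve.Period Fermat.Agent.ES UpperHalfPlane
  Matrix.SpecialLinearGroup Fermat.Agent.S16.Lower
open scoped ModularForm MatrixGroups

/-- (PE4a) RECIPE: `l = perHom (N * q) γ` (`perLat` is the range of `perHom`; write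
`γ = Additive.ofMul γ₀`); then `l ∘ₗ iOp N q = perHom N (Additive.ofMul (Subgroup.inclusion _ γ₀))`
by `LinearMap.ext`, `perHom_apply` and `periodMap_slash 1` (`SlashAction.slash_one`, `one_mul`,
`mul_one`, `GAL.Gamma0_le_of_dvd`). -/
theorem comp_iOp_mem (N q : ℕ) [NeZero N] [NeZero q]
    (l : Module.Dual ℂ (CuspForm (Gamma0 (N * q)) 2)) (hl : l ∈ perLat (N * q)) :
    (l ∘ₗ iOp N q : Module.Dual ℂ (CuspForm (Gamma0 N) 2)) ∈ perLat N := by
  obtain ⟨γ, rfl⟩ := hl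
  obtain ⟨γ₀, rfl⟩ : ∃ γ₀ : Gamma0 (N * q), Additive.ofMul γ₀ = γ := ⟨Additive.toMul γ, rfl⟩
  refine ⟨Additive.ofMul
    (Subgroup.inclusion (GAL.Gamma0_le_of_dvd (Dvd.intro q rfl : N ∣ N * q)) γ₀), ?_⟩
  apply LinearMap.ext
  intro f
  rw [LinearMap.comp_apply, perHom_apply, perHom_apply]
  refine (periodMap_slash (N := N) (M := N * q) 1 (by simp) f (iOp N q f) ?_ γ₀ _ ?_).symm
  · rw [coe_iOp, SlashAction.slash_one]
  · rw [one_mul, mul_one]
    rfl

/-- (PE4b) RECIPE: the same with `α = heckeDiagMatrix q` (`ModularForm.det_heckeDiagMatrix_pos`,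
`Matrix.GeneralLinearGroup.val_det_apply`), `coe_bOp`, and `γ'` from `exists_conj`. -/
theorem comp_bOp_mem (N q : ℕ) [NeZero N] [NeZero q] (hq : q.Prime) (hqN : ¬ q ∣ N)
    (l : Module.Dual ℂ (CuspForm (Gamma0 (N * q)) 2)) (hl : l ∈ perLat (N * q)) :
    (l ∘ₗ bOp N q hq hqN : Module.Dual ℂ (CuspForm (Gamma0 N) 2)) ∈ perLat N := by
  obtain ⟨γ, rfl⟩ := hl
  obtain ⟨γ₀, rfl⟩ : ∃ γ₀ : Gamma0 (N * q), Additive.ofMul γ₀ = γ := ⟨Additive.toMul γ, rfl⟩
  obtain ⟨γ', hγ'⟩ := exists_conj N q γ₀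
  refine ⟨Additive.ofMul γ', ?_⟩
  apply LinearMap.ext
  intro f
  rw [LinearMap.comp_apply, perHom_apply, perHom_apply]
  refine (periodMap_slash (N := N) (M := N * q) (ModularForm.heckeDiagMatrix q) ?_ f
    (bOp N q hq hqN f) (coe_bOp N q hq hqN f) γ₀ γ' hγ').symm
  have h := ModularForm.det_heckeDiagMatrix_pos q
  rwa [Matrix.GeneralLinearGroup.val_det_apply] at h

end Fermat.Agent.S41.Lattice
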