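import Fermat.Agent.GAL.Tors.Betti

/-!
# S41 / LATTICE : integral matrices attached to maps respecting the period lattices
-/

set_option autoImplicit false

noncomputable section

namespace Fermat.Agent.S41.Lattice

open CongruenceSubgroup Fermat.Agent.S16.Lower Fermat.Agent.GAL.Tors Matrix
open scoped ModularForm MatrixGroups

/-- (PE5a) RECIPE: `A i j := (bettiBasis N).repr ⟨(bettiBasis M i).1 ∘ₗ φ, hφ _ (bettiBasis M i).2⟩ j`;
`(bettiBasis N).sum_repr`, `bettiPer_apply`; compare the proof of `bettiPer_T` in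
`GAL/Tors/Betti.lean`. -/
theorem exists_matrix {N M : ℕ} [NeZero N] [NeZero M]
    (φ : CuspForm (Gamma0 N) 2 →ₗ[ℂ] CuspForm (Gamma0 M) 2)
    (hφ : ∀ l ∈ perLat M, (l ∘ₗ φ : Module.Dual ℂ (CuspForm (Gamma0 N) 2)) ∈ perLat N) :
    ∃ A : Matrix (Fin (bettiRank M)) (Fin (bettiRank N)) ℤ, ∀ f : CuspForm (Gamma0 N) 2,
      bettiPer M (φ f) = (A.map (Int.castRingHom ℂ)) *ᵥ bettiPer N f := by
  refine ⟨fun i j => (bettiBasis N).repr
    ⟨(bettiBasis M i).1 ∘ₗ φ, hφ _ (bettiBasis M i).2⟩ j, fun f => ?_⟩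
  funext i
  have h1 := (bettiBasis N).sum_repr ⟨(bettiBasis M i).1 ∘ₗ φ, hφ _ (bettiBasis M i).2⟩
  have h2 := congrArg (fun l : perLat N => (l : Module.Dual ℂ (CuspForm (Gamma0 N) 2)) f) h1
  simp only at h2
  rw [AddSubgroup.val_finsetSum, LinearMap.sum_apply] at h2
  have h3 : ((bettiBasis M i).1 ∘ₗ φ) f = (bettiBasis M i).1 (φ f) := rfl
  rw [bettiPer_apply, Matrix.mulVec, dotProduct, ← h3, ← h2]
  refine Finset.sum_congr rfl fun j _ => ?_
  rw [Matrix.map_apply, bettiPer_apply]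
  simp

/-- (PE5b) RECIPE: as in `Fermat.Agent.GAL.Tors.bettiPer_faithful` (GAL/Tors/Main.lean l. 208):
`∑ j, v j • bettiBasis N j = 0` in `perLat N`, then linear independence of the basis. -/
theorem vec_faithful (N : ℕ) [NeZero N] (v : Fin (bettiRank N) → ℤ)
    (h : ∀ f : CuspForm (Gamma0 N) 2, (fun i => ((v i : ℤ) : ℂ)) ⬝ᵥ bettiPer N f = 0) : v = 0 := by
  have h1 : ∑ j, v j • bettiBasis N j = 0 := by
    apply Subtype.ext
    apply LinearMap.ext
    intro f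
    have h2 := h f
    rw [dotProduct] at h2
    rw [AddSubgroup.val_finsetSum, LinearMap.sum_apply]
    simp only [bettiPer_apply] at h2
    simpa using h2
  funext j
  exact Fintype.linearIndependent_iff.mp (bettiBasis N).linearIndependent v h1 j

/-- (PE5c) RECIPE: apply (PE5b) to every row. -/
theorem mat_faithful (N : ℕ) [NeZero N] {n : ℕ} (t : Matrix (Fin n) (Fin (bettiRank N)) ℤ)
    (h : ∀ f : CuspForm (Gamma0 N) 2, (t.map (Int.castRingHom ℂ)) *ᵥ bettiPer N f = 0) : t = 0 := by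
  ext i j
  have h1 := vec_faithful N (fun j => t i j) (fun f => by
    have h2 := congrFun (h f) i
    rw [Matrix.mulVec] at h2
    exact h2)
  exact congrFun h1 j

/-- (PE5d) RECIPE: `mat_faithful N (bettiT M ℓ * A - A * bettiT N ℓ)`; `Matrix.map_sub`,
`Matrix.map_mul`, `Matrix.sub_mulVec`, `← Matrix.mulVec_mulVec`, `← hA`, `← bettiPer_T`, `hφ`. -/
theorem intertwine_of {N M : ℕ} [NeZero N] [NeZero M]
    (φ : CuspForm (Gamma0 N) 2 →ₗ[ℂ] CuspForm (Gamma0 M) 2)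
    (A : Matrix (Fin (bettiRank M)) (Fin (bettiRank N)) ℤ)
    (hA : ∀ f : CuspForm (Gamma0 N) 2,
      bettiPer M (φ f) = (A.map (Int.castRingHom ℂ)) *ᵥ bettiPer N f)
    {ℓ : ℕ} (hℓ : ℓ.Prime) (hℓN : ¬ ℓ ∣ N) (hℓM : ¬ ℓ ∣ M)
    (hφ : ∀ f, φ (CuspForm.heckeTLin 2 hℓ hℓN f) = CuspForm.heckeTLin 2 hℓ hℓM (φ f)) :
    bettiT M ℓ * A = A * bettiT N ℓ := by
  refine sub_eq_zero.1 (mat_faithful N (bettiT M ℓ * A - A * bettiT N ℓ) fun f => ?_)
  rw [Matrix.map_sub _ (map_sub (Int.castRingHom ℂ)), Matrix.map_mul, Matrix.map_mul,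
    Matrix.sub_mulVec, ← Matrix.mulVec_mulVec, ← Matrix.mulVec_mulVec, ← hA,
    ← bettiPer_T M ℓ hℓ hℓM, ← bettiPer_T N ℓ hℓ hℓN, ← hA, hφ, sub_self]

end Fermat.Agent.S41.Lattice
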