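import Fermat.Agent.S41.Lattice.PE7

/-!
# S41 / LATTICE : periods of `P(T) h`
-/

set_option autoImplicit false

noncomputable section

namespace Fermat.Agent.S41.Lattice

open CongruenceSubgroup ModularCurve Fermat.Agent.S24 Fermat.Agent.GAL Fermat.Agent.GAL.Tors Matrix
open scoped MatrixGroups

/-- (PE8) RECIPE: `FreeAlgebra.induction` on `X` (statement for all `h`).
`algebraMap c`: both sides are `c • Tors.bettiPer M h` (`Algebra.algebraMap_eq_smul_one`, `map_zsmul`/
`map_smul`, `Matrix.map_smul`…, `Matrix.one_mulVec`); `ι ℓ`: `FreeAlgebra.lift_ι_apply`, unfold `TS`,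
`tM`, `split_ifs`: `bettiPer_T M ℓ h.1 h.2.2.1`, resp. `0 = 0`; `X * Y`: `map_mul`,
`Module.End.mul_apply`, `Matrix.map_mul`, `← Matrix.mulVec_mulVec`; `X + Y`: `Matrix.add_mulVec`. -/
theorem bettiPer_lift (W : WeierstrassCurve ℤ) (p M : ℕ) [NeZero M] (X : FreeAlgebra ℤ ℕ)
    (h : CuspForm (Gamma0 M) 2) :
    Tors.bettiPer M (FreeAlgebra.lift ℤ (TS W p M) X h) =
      ((FreeAlgebra.lift ℤ (tM W p M M) X).map (Int.castRingHom ℂ)) *ᵥ Tors.bettiPer M h := by
  induction X using FreeAlgebra.induction generalizing h with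
  | grade0 c =>
    rw [AlgHom.commutes, AlgHom.commutes]
    have e1 : (algebraMap ℤ (Module.End ℂ (CuspForm (Gamma0 M) 2)) c) h = c • h := by
      rw [Algebra.algebraMap_eq_smul_one, LinearMap.smul_apply, Module.End.one_apply]
    have e2 : (algebraMap ℤ (Matrix (Fin (Tors.bettiRank M)) (Fin (Tors.bettiRank M)) ℤ) c).map
        (Int.castRingHom ℂ) = (c : ℂ) • (1 : Matrix _ _ ℂ) := by
      ext i j
      rw [Matrix.map_apply, Matrix.algebraMap_matrix_apply, Matrix.smul_apply, Matrix.one_apply]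
      split_ifs <;> simp
    rw [e1, e2, map_zsmul, Matrix.smul_mulVec, Matrix.one_mulVec, Int.cast_smul_eq_zsmul]
  | grade1 ℓ =>
    rw [FreeAlgebra.lift_ι_apply, FreeAlgebra.lift_ι_apply]
    unfold TS tM
    split_ifs with hℓ
    · exact Tors.bettiPer_T M ℓ hℓ.1 hℓ.2.2.1 h
    · rw [LinearMap.zero_apply, map_zero, Matrix.map_zero _ (map_zero _), Matrix.zero_mulVec]
  | mul X Y hX hY =>
    rw [map_mul, map_mul, Module.End.mul_apply, hX, hY, Matrix.map_mul, Matrix.mulVec_mulVec]
  | add X Y hX hY =>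
    rw [map_add, map_add, LinearMap.add_apply, map_add, hX, hY,
      Matrix.map_add _ (fun a b => map_add _ a b), Matrix.add_mulVec]

end Fermat.Agent.S41.Lattice
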