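import Fermat.Agent.S41.Contracts
import Fermat.Agent.S41.Lattice.Abs
import Fermat.Agent.S41.Lattice.PE4
import Fermat.Agent.S41.Lattice.PE5
import Fermat.Agent.S41.Lattice.PE8

/-!
# S41 / LATTICE : `Count → Lat`
-/

set_option autoImplicit false

noncomputable section

namespace Fermat.Agent.S41.Lattice

open CongruenceSubgroup ModularCurve Fermat.Agent.S24 Fermat.Agent.GAL Fermat.Agent.GAL.Tors Matrix
open scoped MatrixGroups

theorem tM_intertwine (W : WeierstrassCurve ℤ) (p N q : ℕ) [NeZero N] [NeZero q]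
    (φ : CuspForm (Gamma0 N) 2 →ₗ[ℂ] CuspForm (Gamma0 (N * q)) 2)
    (A : Matrix (Fin (Tors.bettiRank (N * q))) (Fin (Tors.bettiRank N)) ℤ)
    (hA : ∀ f : CuspForm (Gamma0 N) 2,
      Tors.bettiPer (N * q) (φ f) = (A.map (Int.castRingHom ℂ)) *ᵥ Tors.bettiPer N f)
    (hφ : ∀ (ℓ : ℕ) (hℓ : ℓ.Prime) (hℓN : ¬ ℓ ∣ N) (hℓM : ¬ ℓ ∣ N * q) (f : CuspForm (Gamma0 N) 2),
      φ (CuspForm.heckeTLin 2 hℓ hℓN f) = CuspForm.heckeTLin 2 hℓ hℓM (φ f)) (ℓ : ℕ) :
    tM W p (N * q) (N * q) ℓ * A = A * tM W p (N * q) N ℓ := by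
  unfold tM
  split_ifs with h
  · exact intertwine_of φ A hA h.1 (fun h' => h.2.2.1 (h'.mul_right q)) h.2.2.1 (hφ ℓ h.1 _ _)
  · rw [Matrix.zero_mul, Matrix.mul_zero]

/-- **Block LATTICE.** -/
theorem latticeC : LatticeC := by
  intro W p N q _ _ hp hq hqN hcount P hP
  by_contra hne
  haveI : Fact p.Prime := ⟨hp⟩
  obtain ⟨A, hA⟩ := exists_matrix (iOp N q) (comp_iOp_mem N q)
  obtain ⟨B, hB⟩ := exists_matrix (bOp N q hq hqN) (comp_bOp_mem N q hq hqN)
  rw [th_eq] at hne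
  have key := abs_main (p := p) (tM W p (N * q) N) (tM W p (N * q) (N * q))
    (tM_commute W p (N * q) N) (tM_commute W p (N * q) (N * q)) (aM W p (N * q)) A B
    (tM_intertwine W p N q _ A hA (fun ℓ hℓ hℓN hℓM f => iOp_heckeTLin N q hℓ hℓN hℓM f))
    (tM_intertwine W p N q _ B hB (fun ℓ hℓ hℓN hℓM f => bOp_heckeTLin N q hq hqN hℓ hℓN hℓM f))
    P ?_ hne
  · rw [← card_GEig W p (N * q) (N * q) dvd_rfl, ← card_GEig W p N (N * q) (Dvd.intro q rfl)] at key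
    exact absurd hcount (not_lt.mpr key)
  · intro v hvA hvB
    apply vec_faithful (N * q)
    intro h
    obtain ⟨f₁, f₂, hf⟩ := hP h
    have e1 : FreeAlgebra.lift ℤ (TS W p (N * q)) P h = iOp N q f₁ + bOp N q hq hqN f₂ := by
      apply DFunLike.coe_injective
      rw [hf, CuspForm.coe_add, coe_iOp, coe_bOp]
    have e2 := bettiPer_lift W p (N * q) P h
    rw [e1, map_add, hA, hB] at e2
    have cast_vecMul : ∀ {m n : ℕ} (w : Fin m → ℤ) (C : Matrix (Fin m) (Fin n) ℤ),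
        (fun i => (((w ᵥ* C) i : ℤ) : ℂ)) = (fun i => ((w i : ℤ) : ℂ)) ᵥ* C.map (Int.castRingHom ℂ) := by
      intro m n w C
      funext i
      simp [Matrix.vecMul, dotProduct]
    rw [cast_vecMul, ← Matrix.dotProduct_mulVec, ← e2, dotProduct_add, Matrix.dotProduct_mulVec,
      Matrix.dotProduct_mulVec, ← cast_vecMul, ← cast_vecMul, hvA, hvB]
    simp

end Fermat.Agent.S41.Lattice
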