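import Fermat.Agent.GAL.LevelRaise
import Fermat.Prelude.Def_CuspForm_HeckeAlgebra

/-!
# S41 / LATTICE : the two degeneracy maps `S₂(N) → S₂(N q)` on cusp forms
-/

set_option autoImplicit false

noncomputable section

namespace Fermat.Agent.S41.Lattice

open CongruenceSubgroup
open scoped ModularForm MatrixGroups

/-- the inclusion `S₂(N) → S₂(N q)`. -/
def iOp (N q : ℕ) : CuspForm (Gamma0 N) 2 →ₗ[ℂ] CuspForm (Gamma0 (N * q)) 2 :=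
  GAL.cuspFormIncl (Dvd.intro q rfl) 2

@[simp] theorem coe_iOp (N q : ℕ) (f : CuspForm (Gamma0 N) 2) : ⇑(iOp N q f) = ⇑f := rfl

theorem iOp_heckeTLin (N q : ℕ) {ℓ : ℕ} (hℓ : ℓ.Prime) (hℓN : ¬ ℓ ∣ N) (hℓM : ¬ ℓ ∣ N * q)
    (f : CuspForm (Gamma0 N) 2) :
    iOp N q (CuspForm.heckeTLin 2 hℓ hℓN f) = CuspForm.heckeTLin 2 hℓ hℓM (iOp N q f) := rfl

/-- `f ↦ f ∣ diag(q, 1)`, i.e. `q f(q τ)`, as `ι T_q - U_q ι`. -/
def bOp (N q : ℕ) [NeZero N] [NeZero q] (hq : q.Prime) (hqN : ¬ q ∣ N) :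
    CuspForm (Gamma0 N) 2 →ₗ[ℂ] CuspForm (Gamma0 (N * q)) 2 :=
  iOp N q ∘ₗ CuspForm.heckeTLin 2 hq hqN - CuspForm.heckeULin 2 (Dvd.intro_left N rfl) ∘ₗ iOp N q

theorem coe_bOp (N q : ℕ) [NeZero N] [NeZero q] (hq : q.Prime) (hqN : ¬ q ∣ N)
    (f : CuspForm (Gamma0 N) 2) :
    ⇑(bOp N q hq hqN f) = ⇑f ∣[(2 : ℤ)] ModularForm.heckeDiagMatrix q := by
  have h : ⇑(bOp N q hq hqN f) = ModularForm.heckeT 2 q ⇑f - ModularForm.heckeU 2 q ⇑f := rfl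
  rw [h, ModularForm.heckeT_eq_heckeU_add, add_sub_cancel_left]

theorem bOp_heckeTLin (N q : ℕ) [NeZero N] [NeZero q] (hq : q.Prime) (hqN : ¬ q ∣ N) {ℓ : ℕ}
    (hℓ : ℓ.Prime) (hℓN : ¬ ℓ ∣ N) (hℓM : ¬ ℓ ∣ N * q) (f : CuspForm (Gamma0 N) 2) :
    bOp N q hq hqN (CuspForm.heckeTLin 2 hℓ hℓN f) =
      CuspForm.heckeTLin 2 hℓ hℓM (bOp N q hq hqN f) := by
  have h1 : CuspForm.heckeTLin 2 hq hqN (CuspForm.heckeTLin 2 hℓ hℓN f) =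
      CuspForm.heckeTLin 2 hℓ hℓN (CuspForm.heckeTLin 2 hq hqN f) :=
    LinearMap.congr_fun (CuspForm.heckeTLin_comm 2 hq hqN hℓ hℓN).eq f
  have h2 : CuspForm.heckeULin 2 (Dvd.intro_left N rfl : q ∣ N * q)
        (CuspForm.heckeTLin 2 hℓ hℓM (iOp N q f)) =
      CuspForm.heckeTLin 2 hℓ hℓM (CuspForm.heckeULin 2 (Dvd.intro_left N rfl) (iOp N q f)) :=
    (LinearMap.congr_fun
      (CuspForm.heckeTLin_heckeULin_comm 2 hℓ hℓM (Dvd.intro_left N rfl : q ∣ N * q)).eq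
      (iOp N q f)).symm
  simp only [bOp, LinearMap.sub_apply, LinearMap.comp_apply, map_sub]
  rw [h1, iOp_heckeTLin N q hℓ hℓN hℓM, iOp_heckeTLin N q hℓ hℓN hℓM, h2]

end Fermat.Agent.S41.Lattice
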