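import Fermat.Agent.S41.Lattice.PE1
import Fermat.Agent.S16.Lower.HeckePeriod

/-!
# S41 / LATTICE : periods of `f ∣ α` (change of level)
-/

set_option autoImplicit false

noncomputable section

namespace Fermat.Agent.S41.Lattice

open CongruenceSubgroup ModularCurve ModularCurve.Period Fermat.Agent.ES UpperHalfPlane
  Matrix.SpecialLinearGroup Fermat.Agent.S16.Lower
open scoped ModularForm MatrixGroups

/-- (PE2a) periods of `g = f ∣ α`, `f` of level `N`, `g` of level `M`.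
RECIPE: copy of `Fermat.Agent.S16.Lower.periodMap_hecke` (S16/Lower/HeckePeriod.lean, 30 lines) with
one matrix and two levels: `F` a primitive of `f` (`exists_hasEquivariantPrimitive N f`),
`w ↦ F (α • w)` is a primitive of `g` (`hasDerivAt_comp_smul_GL`); `periodMap_apply M g _ γ I` and
`periodMap_apply N f hF.1 γ' (α • I)`. -/
theorem periodMap_slash {N M : ℕ} [NeZero N] [NeZero M] (α : GL (Fin 2) ℝ)
    (hdet : 0 < α.val.det) (f : CuspForm (Gamma0 N) 2) (g : CuspForm (Gamma0 M) 2)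
    (hg : (⇑g : ℍ → ℂ) = (⇑f : ℍ → ℂ) ∣[(2 : ℤ)] α) (γ : Gamma0 M) (γ' : Gamma0 N)
    (hmul : α * mapGL ℝ (γ : SL(2, ℤ)) = mapGL ℝ (γ' : SL(2, ℤ)) * α) :
    periodMap M g (Additive.ofMul γ) = periodMap N f (Additive.ofMul γ') := by
  obtain ⟨F, hF⟩ := exists_hasEquivariantPrimitive N f
  have hG : ∀ τ : ℍ, HasDerivAt ((fun w : ℍ => F (α • w)) ∘ ofComplex) (g τ) ↑τ := by
    intro τ
    rw [hg]
    exact hasDerivAt_comp_smul_GL hF.1 α hdet τ
  rw [periodMap_apply M g hG γ UpperHalfPlane.I,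
    periodMap_apply N f hF.1 γ' (α • UpperHalfPlane.I)]
  congr 2
  have e1 : ((γ' : SL(2, ℤ)) • (α • UpperHalfPlane.I) : ℍ)
      = (mapGL ℝ (γ' : SL(2, ℤ)) * α) • UpperHalfPlane.I := by
    rw [mul_smul]; rfl
  have e2 : (α • ((γ : SL(2, ℤ)) • UpperHalfPlane.I) : ℍ)
      = (α * mapGL ℝ (γ : SL(2, ℤ))) • UpperHalfPlane.I := by
    rw [mul_smul]; rfl
  rw [e1, e2, hmul]

end Fermat.Agent.S41.Lattice
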