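import Fermat.Agent.GAL.Tors.HeckeInput
import Fermat.Agent.GAL.Assembly

/-!
# S41 / LATTICE : `(ℤ/m)^r ≃ V_m(F_{ℚ̄}(N))` for the *concrete* lattice `perLat N`
-/

set_option autoImplicit false

noncomputable section

namespace Fermat.Agent.S41.Lattice

open CongruenceSubgroup ModularCurve Fermat.Agent.S24 Fermat.Agent.GAL Fermat.Agent.GAL.Tors
open scoped MatrixGroups

/-- (PE6) the concrete form of `Fermat.Agent.GAL.Tors.nonempty_torsDatum`.
RECIPE: copy the proof of `nonempty_torsDatum` (GAL/Tors/Main.lean l. 250-300, with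
`H := heckeInput N`): it constructs `e` and proves exactly the field `e_T` for `T := bettiT N`
(drop the field `e_red`). -/
theorem exists_bettiE (N : ℕ) [NeZero N] :
    ∃ e : ∀ m : ℕ, [NeZero m] → ((Fin (Tors.bettiRank N) → ZMod m) ≃+ KV Kbar (FF Kbar N) m),
      ∀ (m : ℕ) [NeZero m] (ℓ : ℕ) [NeZero ℓ], ℓ.Prime → ¬ ℓ ∣ N →
        ∀ x : Fin (Tors.bettiRank N) → ZMod m,
          e m (((Tors.bettiT N ℓ).map (Int.castRingHom (ZMod m))).mulVec x) =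
            heckeT Kbar N ℓ m (e m x) := by
  have H := heckeInput N
  obtain ⟨c, hB1, hB3⟩ := exists_charOf N
  choose κ hκ using fun (m : {m : ℕ // NeZero m}) => haveI := m.2; exists_kappa N m.1
  have hfin : ∀ (m : ℕ) [hm : NeZero m], Finite (KV ℂ (FF ℂ N) m) := fun m hm =>
    Finite.of_equiv _ ((c m).trans (κ ⟨m, hm⟩).symm).toEquiv
  let bcE : ∀ m : ℕ, [NeZero m] → (KV Kbar (FF Kbar N) m ≃+ KV ℂ (FF ℂ N) m) := fun m _ =>
    AddEquiv.ofBijective (bcKV N m) (bijective_bcKV N m (hfin m))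
  let e : ∀ m : ℕ, [NeZero m] → ((Fin (Tors.bettiRank N) → ZMod m) ≃+ KV Kbar (FF Kbar N) m) :=
    fun m hm => ((c m).trans (κ ⟨m, hm⟩).symm).trans (bcE m).symm
  have he : ∀ (m : ℕ) [hm : NeZero m] (x : Fin (Tors.bettiRank N) → ZMod m),
      κ ⟨m, hm⟩ (bcKV N m (e m x)) = c m x := by
    intro m hm x
    have h1 : bcKV N m (e m x) = (κ ⟨m, hm⟩).symm (c m x) :=
      (bcE m).apply_symm_apply _
    rw [h1, AddEquiv.apply_symm_apply]
  have hinj : ∀ (m : ℕ) [hm : NeZero m] (a b : KV Kbar (FF Kbar N) m),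
      κ ⟨m, hm⟩ (bcKV N m a) = κ ⟨m, hm⟩ (bcKV N m b) → a = b := by
    intro m hm a b hab
    exact (bijective_bcKV N m (hfin m)).1 ((κ ⟨m, hm⟩).injective hab)
  refine ⟨e, ?_⟩
  intro m hm ℓ hℓ0 hℓ hℓN x
  apply hinj m
  rw [he]
  obtain ⟨u, hu⟩ := KV.mk_surjective (e m x)
  have h1 : HasChar N m (bcUnits N (u : (FF Kbar N)ˣ))
      (Additive.toMul (c m x) : neChars N m).1 := by
    have := hκ ⟨m, hm⟩ ⟨bcUnits N (u : (FF Kbar N)ˣ), bc_mem_kummerUnits N m u u.2⟩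
    have h0 : (KV.mk ⟨bcUnits N (u : (FF Kbar N)ˣ), bc_mem_kummerUnits N m u u.2⟩ :
        KV ℂ (FF ℂ N) m) = bcKV N m (e m x) := by
      rw [← hu, bcKV, KV.map_mk]
    rwa [h0, he] at this
  rw [← hu, heckeT_mk (H.presK ℓ m hℓ hℓN), bcKV, KV.map_mk]
  have h2 := hκ ⟨m, hm⟩ ⟨bcUnits N (Units.map (heckeNorm Kbar N ℓ) (u : (FF Kbar N)ˣ)),
    bc_mem_kummerUnits N m _ (H.presK ℓ m hℓ hℓN u u.2)⟩
  have h3 : HasChar N m (bcUnits N (Units.map (heckeNorm Kbar N ℓ) (u : (FF Kbar N)ˣ)))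
      (Additive.toMul (c m (((Tors.bettiT N ℓ).map (Int.castRingHom (ZMod m))).mulVec x)) :
          neChars N m).1 := by
    refine HasChar.heckeK (H.hstarK ℓ hℓ hℓN) h1 fun γ => ?_
    obtain ⟨D⟩ := nonempty_heckeDecomp N hℓ hℓN γ
    exact ⟨D, hB1 m ℓ hℓ hℓN x γ D⟩
  have h4 := hasChar_unique h3 h2
  exact Additive.toMul.injective (Subtype.ext h4)

end Fermat.Agent.S41.Lattice
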