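import Fermat.Agent.S41.Defs
import Fermat.Agent.S41.Lattice.PE6
import Fermat.Agent.S41.Lattice.ID3

/-!
# S41 / LATTICE : the generalised eigenspaces `GEig` in coordinates
-/

set_option autoImplicit false

noncomputable section

namespace Fermat.Agent.S41.Lattice

open CongruenceSubgroup ModularCurve Fermat.Agent.S24 Fermat.Agent.GAL Fermat.Agent.GAL.Tors Matrix
open scoped MatrixGroups

open Classical in
/-- the integral Hecke matrix of `T_ℓ` at level `M` for `ℓ ∈ Pr W L p` (and `0` otherwise). -/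
def tM (W : WeierstrassCurve ℤ) (p L M : ℕ) [NeZero M] (ℓ : ℕ) :
    Matrix (Fin (Tors.bettiRank M)) (Fin (Tors.bettiRank M)) ℤ :=
  if Pr W L p ℓ then Tors.bettiT M ℓ else 0

open Classical in
/-- `a_ℓ(E)` for `ℓ ∈ Pr W L p` (and `0` otherwise). -/
def aM (W : WeierstrassCurve ℤ) (p L ℓ : ℕ) : ℤ :=
  if Pr W L p ℓ then W.apOfModel ℓ else 0

theorem tM_commute (W : WeierstrassCurve ℤ) (p L M : ℕ) [NeZero M] (ℓ ℓ' : ℕ) :
    Commute (tM W p L M ℓ) (tM W p L M ℓ') := by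
  unfold tM
  split_ifs
  · exact Tors.bettiT_comm M ℓ ℓ'
  · exact Commute.zero_right _
  · exact Commute.zero_left _
  · exact Commute.zero_left _

theorem th_eq (W : WeierstrassCurve ℤ) (p M : ℕ) :
    th W p M = fun ℓ => ((aM W p M ℓ : ℤ) : ZMod p) := by
  funext ℓ
  unfold th aM
  split_ifs <;> simp

/-- (PE7) RECIPE: let `e := (exists_bettiE M).choose p`. Show `x ∈ gEig t θ ↔ e x ∈ GEig W M L p`
and conclude by `Nat.card_congr` (`e.toEquiv.subtypeEquiv`/`Equiv.Set.image`…).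
For `ℓ ∉ Pr W L p` the condition in `gEig` is trivial (`(0 - 0 • 1) ^ 1 *ᵥ x = 0`) and absent in
`GEig`.  For `ℓ ∈ Pr W L p`: `ℓ` is prime, `¬ ℓ ∣ M` (as `M ∣ L`), `heckeTtot_eq`, and by induction
on `n`: `(fun y => heckeTtot M p ℓ y - a • y)^[n] (e x) = e (((t - (a : ZMod p) • 1) ^ n) *ᵥ x)`
(`Function.iterate_succ_apply'`, `pow_succ'`, `Matrix.mulVec_mulVec`, `Matrix.sub_mulVec`, `map_sub`,
`map_zsmul`; `((a : ℤ) : ZMod p) • y = a • y` for `y : Fin r → ZMod p`). -/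
theorem card_GEig (W : WeierstrassCurve ℤ) (p M L : ℕ) [NeZero M] [Fact p.Prime] (hML : M ∣ L) :
    Nat.card (GEig W M L p) =
      Nat.card (gEig (fun ℓ => (tM W p L M ℓ).map (Int.castRingHom (ZMod p)))
        (fun ℓ => ((aM W p L ℓ : ℤ) : ZMod p))) := by
  classical
  have hp : NeZero p := ⟨(Fact.out : p.Prime).ne_zero⟩
  obtain ⟨e, he⟩ := exists_bettiE M
  have step : ∀ ℓ, Pr W L p ℓ → ∀ y : Fin (Tors.bettiRank M) → ZMod p,
      heckeTtot M p ℓ (e p y) - W.apOfModel ℓ • e p y =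
        e p (((tM W p L M ℓ).map (Int.castRingHom (ZMod p)) -
          ((aM W p L ℓ : ℤ) : ZMod p) • (1 : Matrix _ _ (ZMod p))) *ᵥ y) := by
    intro ℓ hℓ y
    have hne : NeZero ℓ := ⟨hℓ.1.ne_zero⟩
    have hℓM : ¬ ℓ ∣ M := fun h => hℓ.2.2.1 (h.trans hML)
    rw [heckeTtot_eq, tM, aM, if_pos hℓ, if_pos hℓ, Matrix.sub_mulVec, Matrix.smul_mulVec,
      Matrix.one_mulVec, map_sub, he p ℓ hℓ.1 hℓM y, Int.cast_smul_eq_zsmul, map_zsmul]
  have iter : ∀ ℓ, Pr W L p ℓ → ∀ (n : ℕ) (x : Fin (Tors.bettiRank M) → ZMod p),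
      (fun y => heckeTtot M p ℓ y - W.apOfModel ℓ • y)^[n] (e p x) =
        e p ((((tM W p L M ℓ).map (Int.castRingHom (ZMod p)) -
          ((aM W p L ℓ : ℤ) : ZMod p) • (1 : Matrix _ _ (ZMod p))) ^ n) *ᵥ x) := by
    intro ℓ hℓ n x
    induction n with
    | zero => simp
    | succ n ih =>
      rw [Function.iterate_succ_apply', ih, pow_succ', ← Matrix.mulVec_mulVec]
      exact step ℓ hℓ _
  have key : ∀ x : Fin (Tors.bettiRank M) → ZMod p,
      x ∈ gEig (fun ℓ => (tM W p L M ℓ).map (Int.castRingHom (ZMod p)))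
        (fun ℓ => ((aM W p L ℓ : ℤ) : ZMod p)) ↔ e p x ∈ GEig W M L p := by
    intro x
    constructor
    · intro hx ℓ hℓ
      obtain ⟨n, hn⟩ := hx ℓ
      refine ⟨n, ?_⟩
      rw [iter ℓ hℓ n x]
      have hn' : (((tM W p L M ℓ).map (Int.castRingHom (ZMod p)) -
          ((aM W p L ℓ : ℤ) : ZMod p) • (1 : Matrix _ _ (ZMod p))) ^ n) *ᵥ x = 0 := hn
      rw [hn', map_zero]
    · intro hx ℓ
      by_cases hℓ : Pr W L p ℓ
      · obtain ⟨n, hn⟩ := hx ℓ hℓ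
        refine ⟨n, ?_⟩
        rw [iter ℓ hℓ n x] at hn
        exact (map_eq_zero_iff (e p) (e p).injective).1 hn
      · refine ⟨1, ?_⟩
        show (((tM W p L M ℓ).map (Int.castRingHom (ZMod p)) -
          ((aM W p L ℓ : ℤ) : ZMod p) • (1 : Matrix _ _ (ZMod p))) ^ 1) *ᵥ x = 0
        rw [tM, aM, if_neg hℓ, if_neg hℓ]
        simp
  symm
  exact Nat.card_congr ((e p).toEquiv.subtypeEquiv key)

end Fermat.Agent.S41.Lattice
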